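import Fermat.Agent.S16.H468.OneDim

/-!
# S16 / WP INV (helper468): Gaussian theta inversion for forms in triangular (LDL) shape

`GaussPair n Q Q' d` says that the form `Q` on `ℝⁿ` is given as
`Q v = α₀ (v₀ + u₀ · v')² + α₁ (v₁ + u₁ · v'')² + ...` with all `αᵢ > 0`, that `Q'` is the dual
form written in the corresponding shape, and that `d = ∏ αᵢ`.  For such a pair we prove, by
induction on `n` from the one-variable case (`oneDim_inversion'`) and Fubini,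

  `∑_x e(τ Q(x + a)/2 + b·x) = (-iτ)^(-n/2) d^(-1/2) ∑_m e(-Q'(m - b)/(2τ) + (m - b)·a)`.
-/

namespace Fermat.Agent.S16.H468

open Complex Real Matrix

noncomputable section

/-- the real Gaussian weight `exp (-π t x)`. -/
def gr (t x : ℝ) : ℝ := rexp (-(π * t * x))

lemma gr_pos (t x : ℝ) : 0 < gr t x := Real.exp_pos _

lemma gr_nonneg (t x : ℝ) : 0 ≤ gr t x := (gr_pos t x).le

lemma gr_add (t x y : ℝ) : gr t (x + y) = gr t x * gr t y := by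
  rw [gr, gr, gr, ← Real.exp_add]; congr 1; ring

lemma norm_gterm' (τ : ℂ) (x y : ℝ) : ‖gterm τ x y‖ = gr τ.im x := norm_gterm τ x y

/-- the real vector of an integer vector. -/
def toR {n : ℕ} (x : Fin n → ℤ) : Fin n → ℝ := fun i => (x i : ℝ)

lemma toR_cons {n : ℕ} (x₀ : ℤ) (x : Fin n → ℤ) :
    toR (Fin.cons x₀ x : Fin (n + 1) → ℤ) = Fin.cons (x₀ : ℝ) (toR x) := by
  funext i
  refine Fin.cases ?_ (fun j => ?_) i <;> simp [toR]

lemma tail_cons_add {n : ℕ} (x₀ : ℝ) (x : Fin n → ℝ) (a : Fin (n + 1) → ℝ) :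
    Fin.tail ((Fin.cons x₀ x : Fin (n + 1) → ℝ) + a) = x + Fin.tail a := by
  funext i; simp [Fin.tail]

lemma tail_cons_sub {n : ℕ} (x₀ : ℝ) (x : Fin n → ℝ) (a : Fin (n + 1) → ℝ) :
    Fin.tail ((Fin.cons x₀ x : Fin (n + 1) → ℝ) - a) = x - Fin.tail a := by
  funext i; simp [Fin.tail]

lemma dot_succ {n : ℕ} (v w : Fin (n + 1) → ℝ) :
    v ⬝ᵥ w = v 0 * w 0 + Fin.tail v ⬝ᵥ Fin.tail w := by
  simp [dotProduct, Fin.sum_univ_succ, Fin.tail]

/-- the equivalence `(x', x₀) ↦ cons x₀ x'`. -/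
def consE (n : ℕ) : (Fin n → ℤ) × ℤ ≃ (Fin (n + 1) → ℤ) where
  toFun p := Fin.cons p.2 p.1
  invFun f := (Fin.tail f, f 0)
  left_inv p := by simp
  right_inv f := by simp

@[simp] lemma consE_apply (n : ℕ) (p : (Fin n → ℤ) × ℤ) : consE n p = Fin.cons p.2 p.1 := rfl

/-- the equivalence `(x₀, x') ↦ cons x₀ x'`. -/
def consE' (n : ℕ) : ℤ × (Fin n → ℤ) ≃ (Fin (n + 1) → ℤ) where
  toFun p := Fin.cons p.1 p.2
  invFun f := (f 0, Fin.tail f)
  left_inv p := by simp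
  right_inv f := by simp

@[simp] lemma consE'_apply (n : ℕ) (p : ℤ × (Fin n → ℤ)) : consE' n p = Fin.cons p.1 p.2 := rfl

/-- A pair of "quadratic forms" `Q`, `Q'` on `ℝⁿ` given in triangular (LDL) form, dual to each
other, with determinant `d`. -/
inductive GaussPair : (n : ℕ) → ((Fin n → ℝ) → ℝ) → ((Fin n → ℝ) → ℝ) → ℝ → Prop
  | nil (Q Q' : (Fin 0 → ℝ) → ℝ) (hQ : ∀ v, Q v = 0) (hQ' : ∀ v, Q' v = 0) : GaussPair 0 Q Q' 1
  | cons {n : ℕ} (Q Q' : (Fin (n + 1) → ℝ) → ℝ) (α : ℝ) (hα : 0 < α) (u : Fin n → ℝ)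
      (Q₁ Q₁' : (Fin n → ℝ) → ℝ) (d : ℝ) (h : GaussPair n Q₁ Q₁' d)
      (hQ : ∀ v, Q v = α * (v 0 + u ⬝ᵥ Fin.tail v) ^ 2 + Q₁ (Fin.tail v))
      (hQ' : ∀ w, Q' w = (w 0) ^ 2 / α + Q₁' (Fin.tail w - w 0 • u)) :
      GaussPair (n + 1) Q Q' (α * d)

lemma GaussPair.det_pos {n : ℕ} {Q Q' : (Fin n → ℝ) → ℝ} {d : ℝ} (h : GaussPair n Q Q' d) :
    0 < d := by
  induction h with
  | nil => exact one_pos
  | cons Q Q' α hα u Q₁ Q₁' d h hQ hQ' ih => exact mul_pos hα ih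

/-- Uniform summability of the Gaussian weights of the first form. -/
theorem GaussPair.unif {n : ℕ} {Q Q' : (Fin n → ℝ) → ℝ} {d : ℝ} (h : GaussPair n Q Q' d)
    {t : ℝ} (ht : 0 < t) :
    ∃ K : ℝ, 0 ≤ K ∧ ∀ a : Fin n → ℝ,
      Summable (fun x : Fin n → ℤ => gr t (Q (toR x + a))) ∧
        ∑' x : Fin n → ℤ, gr t (Q (toR x + a)) ≤ K := by
  induction h with
  | nil Q Q' hQ hQ' =>
    refine ⟨1, zero_le_one, fun a => ⟨Summable.of_finite, ?_⟩⟩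
    rw [tsum_fintype]
    simp [hQ, gr]
  | cons Q Q' α hα u Q₁ Q₁' d h hQ hQ' ih =>
    obtain ⟨K₁, hK₁, hS₁⟩ := ih
    obtain ⟨K₀, hK₀, hS₀⟩ := oneDim_uniform ht hα
    refine ⟨K₀ * K₁, mul_nonneg hK₀ hK₁, fun a => ?_⟩
    -- the family on the product
    have key : ∀ p : (Fin _ → ℤ) × ℤ, gr t (Q (toR (consE _ p) + a)) =
        gr t (α * (((p.2 : ℤ) : ℝ) + (a 0 + u ⬝ᵥ (toR p.1 + Fin.tail a))) ^ 2) *
          gr t (Q₁ (toR p.1 + Fin.tail a)) := by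
      intro p
      rw [← gr_add, hQ, consE_apply, toR_cons, tail_cons_add]
      simp [add_assoc]
    have hfib : ∀ x' : Fin _ → ℤ, Summable fun x₀ : ℤ =>
        gr t (α * ((x₀ : ℝ) + (a 0 + u ⬝ᵥ (toR x' + Fin.tail a))) ^ 2) *
          gr t (Q₁ (toR x' + Fin.tail a)) := fun x' =>
      (oneDim_real_summable ht hα _).mul_right _
    have hfib_le : ∀ x' : Fin _ → ℤ, ∑' x₀ : ℤ,
        gr t (α * ((x₀ : ℝ) + (a 0 + u ⬝ᵥ (toR x' + Fin.tail a))) ^ 2) *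
          gr t (Q₁ (toR x' + Fin.tail a)) ≤ K₀ * gr t (Q₁ (toR x' + Fin.tail a)) := by
      intro x'
      rw [tsum_mul_right]
      exact mul_le_mul_of_nonneg_right (hS₀ _) (gr_nonneg _ _)
    have hsum : Summable fun p : (Fin _ → ℤ) × ℤ => gr t (Q (toR (consE _ p) + a)) := by
      simp_rw [key]
      rw [summable_prod_of_nonneg (fun p => mul_nonneg (gr_nonneg _ _) (gr_nonneg _ _))]
      refine ⟨hfib, ?_⟩
      refine Summable.of_nonneg_of_le (fun x' => tsum_nonneg fun _ =>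
        mul_nonneg (gr_nonneg _ _) (gr_nonneg _ _)) hfib_le ?_
      exact ((hS₁ _).1).mul_left _
    refine ⟨(consE _).summable_iff.mp hsum, ?_⟩
    rw [← (consE _).tsum_eq, hsum.tsum_prod]
    simp_rw [key]
    calc ∑' x' : Fin _ → ℤ, ∑' x₀ : ℤ,
          gr t (α * ((x₀ : ℝ) + (a 0 + u ⬝ᵥ (toR x' + Fin.tail a))) ^ 2) *
            gr t (Q₁ (toR x' + Fin.tail a))
        ≤ ∑' x' : Fin _ → ℤ, K₀ * gr t (Q₁ (toR x' + Fin.tail a)) := by
          refine Summable.tsum_le_tsum hfib_le ?_ (((hS₁ _).1).mul_left _)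
          refine Summable.of_nonneg_of_le (fun x' => tsum_nonneg fun _ =>
            mul_nonneg (gr_nonneg _ _) (gr_nonneg _ _)) hfib_le (((hS₁ _).1).mul_left _)
      _ = K₀ * ∑' x' : Fin _ → ℤ, gr t (Q₁ (toR x' + Fin.tail a)) := tsum_mul_left
      _ ≤ K₀ * K₁ := mul_le_mul_of_nonneg_left (hS₁ _).2 hK₀

/-- Uniform summability of the Gaussian weights of the second (dual) form. -/
theorem GaussPair.unif' {n : ℕ} {Q Q' : (Fin n → ℝ) → ℝ} {d : ℝ} (h : GaussPair n Q Q' d)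
    {t : ℝ} (ht : 0 < t) :
    ∃ K : ℝ, 0 ≤ K ∧ ∀ a : Fin n → ℝ,
      Summable (fun x : Fin n → ℤ => gr t (Q' (toR x + a))) ∧
        ∑' x : Fin n → ℤ, gr t (Q' (toR x + a)) ≤ K := by
  induction h with
  | nil Q Q' hQ hQ' =>
    refine ⟨1, zero_le_one, fun a => ⟨Summable.of_finite, ?_⟩⟩
    rw [tsum_fintype]
    simp [hQ', gr]
  | cons Q Q' α hα u Q₁ Q₁' d h hQ hQ' ih =>
    obtain ⟨K₁, hK₁, hS₁⟩ := ih
    obtain ⟨K₀, hK₀, hS₀⟩ := oneDim_uniform ht (inv_pos.mpr hα)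
    refine ⟨K₀ * K₁, mul_nonneg hK₀ hK₁, fun a => ?_⟩
    have key : ∀ p : ℤ × (Fin _ → ℤ), gr t (Q' (toR (consE' _ p) + a)) =
        gr t (α⁻¹ * (((p.1 : ℤ) : ℝ) + a 0) ^ 2) *
          gr t (Q₁' (toR p.2 + (Fin.tail a - (((p.1 : ℤ) : ℝ) + a 0) • u))) := by
      intro p
      rw [← gr_add, hQ', consE'_apply, toR_cons, tail_cons_add, add_sub_assoc]
      simp [div_eq_inv_mul]
    have h1 : Summable fun w₀ : ℤ => gr t (α⁻¹ * ((w₀ : ℝ) + a 0) ^ 2) :=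
      oneDim_real_summable ht (inv_pos.mpr hα) _
    have hfib : ∀ w₀ : ℤ, Summable fun w' : Fin _ → ℤ =>
        gr t (α⁻¹ * ((w₀ : ℝ) + a 0) ^ 2) *
          gr t (Q₁' (toR w' + (Fin.tail a - ((w₀ : ℝ) + a 0) • u))) := fun w₀ =>
      ((hS₁ _).1).mul_left _
    have hfib_le : ∀ w₀ : ℤ, ∑' w' : Fin _ → ℤ,
        gr t (α⁻¹ * ((w₀ : ℝ) + a 0) ^ 2) *
          gr t (Q₁' (toR w' + (Fin.tail a - ((w₀ : ℝ) + a 0) • u))) ≤
        gr t (α⁻¹ * ((w₀ : ℝ) + a 0) ^ 2) * K₁ := by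
      intro w₀
      rw [tsum_mul_left]
      exact mul_le_mul_of_nonneg_left (hS₁ _).2 (gr_nonneg _ _)
    have hout : Summable fun w₀ : ℤ => ∑' w' : Fin _ → ℤ,
        gr t (α⁻¹ * ((w₀ : ℝ) + a 0) ^ 2) *
          gr t (Q₁' (toR w' + (Fin.tail a - ((w₀ : ℝ) + a 0) • u))) :=
      Summable.of_nonneg_of_le (fun w₀ => tsum_nonneg fun _ =>
        mul_nonneg (gr_nonneg _ _) (gr_nonneg _ _)) hfib_le (h1.mul_right _)
    have hsum : Summable fun p : ℤ × (Fin _ → ℤ) => gr t (Q' (toR (consE' _ p) + a)) := by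
      simp_rw [key]
      rw [summable_prod_of_nonneg (fun p => mul_nonneg (gr_nonneg _ _) (gr_nonneg _ _))]
      exact ⟨hfib, hout⟩
    refine ⟨(consE' _).summable_iff.mp hsum, ?_⟩
    rw [← (consE' _).tsum_eq, hsum.tsum_prod]
    simp_rw [key]
    calc ∑' w₀ : ℤ, ∑' w' : Fin _ → ℤ,
          gr t (α⁻¹ * ((w₀ : ℝ) + a 0) ^ 2) *
            gr t (Q₁' (toR w' + (Fin.tail a - ((w₀ : ℝ) + a 0) • u)))
        ≤ ∑' w₀ : ℤ, gr t (α⁻¹ * ((w₀ : ℝ) + a 0) ^ 2) * K₁ :=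
          Summable.tsum_le_tsum hfib_le hout (h1.mul_right _)
      _ = (∑' w₀ : ℤ, gr t (α⁻¹ * ((w₀ : ℝ) + a 0) ^ 2)) * K₁ := tsum_mul_right
      _ ≤ K₀ * K₁ := mul_le_mul_of_nonneg_right (hS₀ _) hK₁

/-- summability of the primal complex family. -/
lemma GaussPair.summable_gterm {n : ℕ} {Q Q' : (Fin n → ℝ) → ℝ} {d : ℝ} (h : GaussPair n Q Q' d)
    {τ : ℂ} (hτ : 0 < τ.im) (a : Fin n → ℝ) (f : (Fin n → ℤ) → ℝ) :
    Summable fun x : Fin n → ℤ => gterm τ (Q (toR x + a)) (f x) := by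
  obtain ⟨K, -, hK⟩ := h.unif hτ
  refine Summable.of_norm ?_
  simp_rw [norm_gterm']
  exact (hK a).1

/-- summability of the dual complex family. -/
lemma GaussPair.summable_gterm' {n : ℕ} {Q Q' : (Fin n → ℝ) → ℝ} {d : ℝ} (h : GaussPair n Q Q' d)
    {τ : ℂ} (hτ : 0 < τ.im) (a : Fin n → ℝ) (f : (Fin n → ℤ) → ℝ) :
    Summable fun x : Fin n → ℤ => gterm τ (Q' (toR x + a)) (f x) := by
  obtain ⟨K, -, hK⟩ := h.unif' hτ
  refine Summable.of_norm ?_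
  simp_rw [norm_gterm']
  exact (hK a).1

lemma cpow_half_real_mul {α : ℝ} (hα : 0 < α) {x : ℂ} (hx : x ≠ 0) :
    ((α : ℂ) * x) ^ (1 / 2 : ℂ) = ((Real.sqrt α : ℝ) : ℂ) * x ^ (1 / 2 : ℂ) := by
  have hα0 : (α : ℂ) ≠ 0 := by exact_mod_cast hα.ne'
  rw [Complex.cpow_def_of_ne_zero (mul_ne_zero hα0 hx), Complex.cpow_def_of_ne_zero hx,
    Complex.log_ofReal_mul hα hx, add_mul, Complex.exp_add]
  congr 1
  rw [Real.sqrt_eq_rpow, Real.rpow_def_of_pos hα, Complex.ofReal_exp]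
  congr 1
  push_cast
  ring

/-- the constant of the `n`-dimensional inversion formula. -/
def gconst (n : ℕ) (d : ℝ) (τ : ℂ) : ℂ :=
  (1 / (-I * τ) ^ (1 / 2 : ℂ)) ^ n * (1 / ((Real.sqrt d : ℝ) : ℂ))

lemma gconst_zero (τ : ℂ) : gconst 0 1 τ = 1 := by simp [gconst]

lemma gconst_succ (n : ℕ) {α : ℝ} (hα : 0 < α) (d : ℝ) {τ : ℂ} (hτ : τ ≠ 0) :
    1 / (-I * (τ * α)) ^ (1 / 2 : ℂ) * gconst n d τ = gconst (n + 1) (α * d) τ := by
  have h1 : -I * (τ * α) = (α : ℂ) * (-I * τ) := by ring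
  have h2 : -I * τ ≠ 0 := mul_ne_zero (neg_ne_zero.mpr Complex.I_ne_zero) hτ
  rw [h1, cpow_half_real_mul hα h2, gconst, gconst, Real.sqrt_mul hα.le, pow_succ]
  push_cast
  field_simp

lemma gconst_four {p : ℝ} (hp : 0 < p) (τ : ℂ) :
    gconst 4 (p ^ 2) τ = -1 / (τ ^ 2 * p) := by
  have h : ((-I * τ) ^ (1 / 2 : ℂ)) ^ 2 = -I * τ := by
    have h2 := Complex.cpow_nat_inv_pow (-I * τ) (n := 2) (by norm_num)
    have h3 : (1 / 2 : ℂ) = ((2 : ℕ) : ℂ)⁻¹ := by norm_num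
    rw [h3]
    exact h2
  have h4 : ((-I * τ) ^ (1 / 2 : ℂ)) ^ 4 = -τ ^ 2 := by
    have : ((-I * τ) ^ (1 / 2 : ℂ)) ^ 4 = (((-I * τ) ^ (1 / 2 : ℂ)) ^ 2) ^ 2 := by ring
    rw [this, h, mul_pow, neg_sq, Complex.I_sq]; ring
  rw [gconst, Real.sqrt_sq hp.le, one_div, inv_pow, h4]
  field_simp


lemma gterm_congr (τ : ℂ) {x x' y y' : ℝ} (hx : x = x') (hy : y = y') :
    gterm τ x y = gterm τ x' y' := by rw [hx, hy]

lemma gterm_mul_congr (τ₁ τ₂ : ℂ) (X Y : ℝ) {y₁ y₂ y₁' y₂' : ℝ} (h : y₁ + y₂ = y₁' + y₂') :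
    gterm τ₁ X y₁ * gterm τ₂ Y y₂ = gterm τ₁ X y₁' * gterm τ₂ Y y₂' := by
  simp only [gterm, ← Complex.exp_add]
  congr 1
  have h' : (y₁ : ℂ) + y₂ = y₁' + y₂' := by exact_mod_cast h
  linear_combination (2 * π * I) * h'

/-- **Gaussian theta inversion** for a pair of forms in triangular form, with real shift `a`
and real character `b`. -/
theorem GaussPair.inversion {n : ℕ} {Q Q' : (Fin n → ℝ) → ℝ} {d : ℝ} (h : GaussPair n Q Q' d)
    {τ : ℂ} (hτ : 0 < τ.im) :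
    ∀ a b : Fin n → ℝ,
    ∑' x : Fin n → ℤ, gterm τ (Q (toR x + a)) (b ⬝ᵥ toR x) =
      gconst n d τ *
        ∑' m : Fin n → ℤ, gterm (-1 / τ) (Q' (toR m - b)) ((toR m - b) ⬝ᵥ a) := by
  have hτ0 : τ ≠ 0 := by rintro rfl; simp at hτ
  have hτ' : 0 < (-1 / τ).im := im_neg_one_div_pos' hτ
  induction h with
  | nil Q Q' hQ hQ' =>
    intro a b
    rw [tsum_fintype, tsum_fintype]
    simp [hQ, hQ', gterm, gconst_zero]
  | @cons n Q Q' α hα u Q₁ Q₁' d h hQ hQ' ih =>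
    intro a b
    have hfull : GaussPair (n + 1) Q Q' (α * d) := GaussPair.cons Q Q' α hα u Q₁ Q₁' d h hQ hQ'
    -- pointwise decomposition of the primal term
    have keyP : ∀ p : (Fin n → ℤ) × ℤ,
        gterm τ (Q (toR (consE n p) + a)) (b ⬝ᵥ toR (consE n p)) =
          gterm τ (α * (((p.2 : ℤ) : ℝ) + (a 0 + u ⬝ᵥ (toR p.1 + Fin.tail a))) ^ 2)
              (b 0 * ((p.2 : ℤ) : ℝ)) *
            gterm τ (Q₁ (toR p.1 + Fin.tail a)) (Fin.tail b ⬝ᵥ toR p.1) := by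
      intro p
      rw [← gterm_add]
      refine gterm_congr τ ?_ ?_
      · rw [hQ, consE_apply, toR_cons, tail_cons_add]
        simp [add_assoc]
      · rw [dot_succ, consE_apply, toR_cons]
        simp
    -- pointwise decomposition of the dual term
    have keyD : ∀ p : ℤ × (Fin n → ℤ),
        gterm (-1 / τ) (Q' (toR (consE' n p) - b)) ((toR (consE' n p) - b) ⬝ᵥ a) =
          gterm (-1 / τ) ((((p.1 : ℤ) : ℝ) - b 0) ^ 2 / α)
              ((((p.1 : ℤ) : ℝ) - b 0) * (a 0 + u ⬝ᵥ Fin.tail a)) *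
            gterm (-1 / τ) (Q₁' (toR p.2 - (Fin.tail b + (((p.1 : ℤ) : ℝ) - b 0) • u)))
              ((toR p.2 - (Fin.tail b + (((p.1 : ℤ) : ℝ) - b 0) • u)) ⬝ᵥ Fin.tail a) := by
      intro p
      rw [← gterm_add]
      refine gterm_congr _ ?_ ?_
      · rw [hQ', consE'_apply, toR_cons, tail_cons_sub, sub_sub]
        simp
      · rw [dot_succ, consE'_apply, toR_cons, tail_cons_sub]
        simp only [Pi.sub_apply, Fin.cons_zero, sub_dotProduct, add_dotProduct, smul_dotProduct,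
          smul_eq_mul]
        ring
    -- summability facts
    have hsumP : Summable fun p : (Fin n → ℤ) × ℤ =>
        gterm τ (Q (toR (consE n p) + a)) (b ⬝ᵥ toR (consE n p)) :=
      (consE n).summable_iff.mpr (hfull.summable_gterm hτ a fun x => b ⬝ᵥ toR x)
    have hsumD : Summable fun p : ℤ × (Fin n → ℤ) =>
        gterm (-1 / τ) (Q' (toR (consE' n p) - b)) ((toR (consE' n p) - b) ⬝ᵥ a) := by
      have := hfull.summable_gterm' hτ' (-b) fun x => (toR x - b) ⬝ᵥ a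
      simp only [← sub_eq_add_neg] at this
      exact (consE' n).summable_iff.mpr this
    have hsumQ₁ : Summable fun x' : Fin n → ℤ => gr τ.im (Q₁ (toR x' + Fin.tail a)) := by
      obtain ⟨K, -, hK⟩ := h.unif hτ
      exact (hK _).1
    have hsum1 : Summable fun m₀ : ℤ => gr (-1 / τ).im ((((m₀ : ℤ) : ℝ) - b 0) ^ 2 / α) := by
      have := (oneDim_dual_summable hτ hα 0 (b 0)).norm
      simpa only [norm_gterm'] using this
    -- the mixed family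
    have hsumW : Summable (Function.uncurry fun (x' : Fin n → ℤ) (m₀ : ℤ) =>
        gterm (-1 / τ) ((((m₀ : ℤ) : ℝ) - b 0) ^ 2 / α)
            ((((m₀ : ℤ) : ℝ) - b 0) * (a 0 + u ⬝ᵥ (toR x' + Fin.tail a))) *
          gterm τ (Q₁ (toR x' + Fin.tail a)) (Fin.tail b ⬝ᵥ toR x')) := by
      refine Summable.of_norm ?_
      have := hsumQ₁.mul_of_nonneg hsum1 (fun _ => gr_nonneg _ _) (fun _ => gr_nonneg _ _)
      refine this.congr fun p => ?_
      simp only [Function.uncurry, norm_mul, norm_gterm']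
      ring
    calc ∑' x : Fin (n + 1) → ℤ, gterm τ (Q (toR x + a)) (b ⬝ᵥ toR x)
        = ∑' p : (Fin n → ℤ) × ℤ,
            gterm τ (Q (toR (consE n p) + a)) (b ⬝ᵥ toR (consE n p)) :=
          ((consE n).tsum_eq _).symm
      _ = ∑' x' : Fin n → ℤ, ∑' x₀ : ℤ,
            gterm τ (α * (((x₀ : ℤ) : ℝ) + (a 0 + u ⬝ᵥ (toR x' + Fin.tail a))) ^ 2)
                (b 0 * ((x₀ : ℤ) : ℝ)) *
              gterm τ (Q₁ (toR x' + Fin.tail a)) (Fin.tail b ⬝ᵥ toR x') := by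
          rw [hsumP.tsum_prod]
          simp_rw [keyP]
      _ = ∑' x' : Fin n → ℤ, ∑' m₀ : ℤ, 1 / (-I * (τ * α)) ^ (1 / 2 : ℂ) *
            (gterm (-1 / τ) ((((m₀ : ℤ) : ℝ) - b 0) ^ 2 / α)
                ((((m₀ : ℤ) : ℝ) - b 0) * (a 0 + u ⬝ᵥ (toR x' + Fin.tail a))) *
              gterm τ (Q₁ (toR x' + Fin.tail a)) (Fin.tail b ⬝ᵥ toR x')) := by
          refine tsum_congr fun x' => ?_
          rw [tsum_mul_right, oneDim_inversion' hτ hα, tsum_mul_left, tsum_mul_right, mul_assoc]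
      _ = 1 / (-I * (τ * α)) ^ (1 / 2 : ℂ) * ∑' x' : Fin n → ℤ, ∑' m₀ : ℤ,
            (gterm (-1 / τ) ((((m₀ : ℤ) : ℝ) - b 0) ^ 2 / α)
                ((((m₀ : ℤ) : ℝ) - b 0) * (a 0 + u ⬝ᵥ (toR x' + Fin.tail a))) *
              gterm τ (Q₁ (toR x' + Fin.tail a)) (Fin.tail b ⬝ᵥ toR x')) := by
          simp_rw [tsum_mul_left]
      _ = 1 / (-I * (τ * α)) ^ (1 / 2 : ℂ) * ∑' m₀ : ℤ, ∑' x' : Fin n → ℤ,
            (gterm (-1 / τ) ((((m₀ : ℤ) : ℝ) - b 0) ^ 2 / α)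
                ((((m₀ : ℤ) : ℝ) - b 0) * (a 0 + u ⬝ᵥ (toR x' + Fin.tail a))) *
              gterm τ (Q₁ (toR x' + Fin.tail a)) (Fin.tail b ⬝ᵥ toR x')) := by
          rw [hsumW.tsum_comm]
      _ = 1 / (-I * (τ * α)) ^ (1 / 2 : ℂ) * ∑' m₀ : ℤ, gconst n d τ * ∑' m' : Fin n → ℤ,
            gterm (-1 / τ) (Q' (toR (consE' n (m₀, m')) - b))
              ((toR (consE' n (m₀, m')) - b) ⬝ᵥ a) := by
          congr 1
          refine tsum_congr fun m₀ => ?_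
          have e1 : ∀ x' : Fin n → ℤ,
              gterm (-1 / τ) ((((m₀ : ℤ) : ℝ) - b 0) ^ 2 / α)
                  ((((m₀ : ℤ) : ℝ) - b 0) * (a 0 + u ⬝ᵥ (toR x' + Fin.tail a))) *
                gterm τ (Q₁ (toR x' + Fin.tail a)) (Fin.tail b ⬝ᵥ toR x') =
              gterm (-1 / τ) ((((m₀ : ℤ) : ℝ) - b 0) ^ 2 / α)
                  ((((m₀ : ℤ) : ℝ) - b 0) * (a 0 + u ⬝ᵥ Fin.tail a)) *
                gterm τ (Q₁ (toR x' + Fin.tail a))
                  ((Fin.tail b + (((m₀ : ℤ) : ℝ) - b 0) • u) ⬝ᵥ toR x') := by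
            intro x'
            refine gterm_mul_congr _ _ _ _ ?_
            simp only [dotProduct_add, add_dotProduct, smul_dotProduct, smul_eq_mul]
            ring
          simp_rw [e1, keyD]
          rw [tsum_mul_left, ih, tsum_mul_left]
          ring
      _ = gconst (n + 1) (α * d) τ * ∑' p : ℤ × (Fin n → ℤ),
            gterm (-1 / τ) (Q' (toR (consE' n p) - b)) ((toR (consE' n p) - b) ⬝ᵥ a) := by
          rw [tsum_mul_left, ← mul_assoc, gconst_succ n hα d hτ0, hsumD.tsum_prod]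
      _ = gconst (n + 1) (α * d) τ *
            ∑' m : Fin (n + 1) → ℤ, gterm (-1 / τ) (Q' (toR m - b)) ((toR m - b) ⬝ᵥ a) := by
          rw [(consE' n).tsum_eq fun m => gterm (-1 / τ) (Q' (toR m - b)) ((toR m - b) ⬝ᵥ a)]

end

end Fermat.Agent.S16.H468
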