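import Fermat.Agent.S16.H468.Schur
import Fermat.Agent.S16.Interface
import Fermat.Agent.S16.H756.ThetaDefs

/-!
# S16 / WP INV (helper468): theta inversion in the shapes used by the S16 skeleton

* `thetaInv_of_isGoodLattice` : `IsGoodLattice p A B → ThetaInv p A B` (any good lattice);
* `theta_inversion` : the exact skeleton statement `Skel.theta_inversion` (Ibukiyama lattice);
* `gaussInv_of_posDef` : the generic `H756.GaussInv` structure for a positive definite
  integral matrix, with `κ = gconst n (det A)`, i.e. `κ τ = (-iτ)^(-n/2) (det A)^(-1/2)`.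
-/

namespace Fermat.Agent.S16.H468

open Complex Real Matrix
open UpperHalfPlane hiding I

noncomputable section

/-! ### general facts on real forms -/

lemma rqf_add_inv {n : ℕ} {A B : Matrix (Fin n) (Fin n) ℝ} (hA : Aᵀ = A) (hAB : A * B = 1)
    (X Y : Fin n → ℝ) : rqf A (X + B *ᵥ Y) = rqf A X + 2 * (X ⬝ᵥ Y) + rqf B Y := by
  have h1 : A *ᵥ (B *ᵥ Y) = Y := by rw [mulVec_mulVec, hAB, one_mulVec]
  have h2 : (B *ᵥ Y) ⬝ᵥ A *ᵥ X = X ⬝ᵥ Y := by
    rw [dotProduct_mulVec, ← mulVec_transpose, hA, h1, dotProduct_comm]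
  have h3 : (B *ᵥ Y) ⬝ᵥ Y = Y ⬝ᵥ B *ᵥ Y := dotProduct_comm _ _
  simp only [rqf, mulVec_add, add_dotProduct, dotProduct_add, h1, h2, h3]
  ring

lemma rqf_smul {n : ℕ} (c : ℝ) (M : Matrix (Fin n) (Fin n) ℝ) (v : Fin n → ℝ) :
    rqf (c • M) v = c * rqf M v := by
  simp [rqf, smul_mulVec, dotProduct_smul]

/-! ### casts -/

lemma toR_mulVec {n : ℕ} (A : Matrix (Fin n) (Fin n) ℤ) (x : Fin n → ℤ) :
    toR (A *ᵥ x) = A.map (Int.cast : ℤ → ℝ) *ᵥ toR x := by
  funext i
  simp [toR, mulVec, dotProduct]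

lemma cast_dot {n : ℕ} (x y : Fin n → ℤ) : ((x ⬝ᵥ y : ℤ) : ℝ) = toR x ⬝ᵥ toR y := by
  simp [toR, dotProduct]

lemma rqf_cast {n : ℕ} (A : Matrix (Fin n) (Fin n) ℤ) (x : Fin n → ℤ) :
    rqf (A.map (Int.cast : ℤ → ℝ)) (toR x) = ((x ⬝ᵥ A *ᵥ x : ℤ) : ℝ) := by
  rw [rqf, ← toR_mulVec, ← cast_dot]

lemma gterm_zero_right (τ : ℂ) (x : ℝ) : gterm τ x 0 = cexp (π * I * τ * (x : ℂ)) := by
  simp [gterm]

/-! ### the skeleton statement -/

/-- **WP INV, general form**: theta inversion for any good lattice. -/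
theorem thetaInv_of_isGoodLattice (p : ℕ) (A B : Matrix (Fin 4) (Fin 4) ℤ)
    (hA : IsGoodLattice p A B) : ThetaInv p A B := by
  intro y z
  -- real matrices
  have hdet : (A.map (Int.cast : ℤ → ℝ)).det = (p : ℝ) ^ 2 := by
    rw [← Int.cast_det, hA.det_eq]; push_cast; rfl
  have hp : 0 < (p : ℝ) := by
    have h := hA.posDef.det_pos
    rw [hdet] at h
    rcases Nat.eq_zero_or_pos p with h0 | h0
    · rw [h0] at h; simp at h
    · exact_mod_cast h0
  have hpC : (p : ℂ) ≠ 0 := by exact_mod_cast hp.ne'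
  have hAB : A.map (Int.cast : ℤ → ℝ) * ((p : ℝ)⁻¹ • B.map (Int.cast : ℤ → ℝ)) = 1 := by
    ext i j
    have h := congrFun (congrFun hA.mul_eq i) j
    have h' := congrArg (Int.cast : ℤ → ℝ) h
    simp only [Matrix.mul_apply, Matrix.smul_apply, Matrix.one_apply, smul_eq_mul] at h'
    simp only [Matrix.mul_apply, Matrix.smul_apply, Matrix.map_apply, smul_eq_mul,
      Matrix.one_apply]
    push_cast at h'
    have h'' : ∑ k, (A i k : ℝ) * ((p : ℝ)⁻¹ * (B k j : ℝ)) =
        (p : ℝ)⁻¹ * ∑ k, (A i k : ℝ) * (B k j : ℝ) := by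
      rw [Finset.mul_sum]
      refine Finset.sum_congr rfl fun k _ => ?_
      ring
    rw [h'', h']
    split_ifs <;> field_simp
  have hsymm : (A.map (Int.cast : ℤ → ℝ))ᵀ = A.map (Int.cast : ℤ → ℝ) := by
    rw [← Matrix.transpose_map, hA.symm.eq]
  -- the point `τ = S • z`
  have hz0 : (z : ℂ) ≠ 0 := ne_zero z
  have hτ : 0 < ((ModularGroup.S • z : ℍ) : ℂ).im := (ModularGroup.S • z).im_pos
  have hτz : ((ModularGroup.S • z : ℍ) : ℂ) = -1 / (z : ℂ) := by
    rw [modular_S_smul]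
    simp [neg_div, inv_neg]
  have hτz' : -1 / ((ModularGroup.S • z : ℍ) : ℂ) = z := by
    rw [hτz]; field_simp
  have key := theta_inversion_real (A.map (Int.cast : ℤ → ℝ))
    ((p : ℝ)⁻¹ • B.map (Int.cast : ℤ → ℝ)) hA.posDef hAB hτ
    (((p : ℝ)⁻¹ • B.map (Int.cast : ℤ → ℝ)) *ᵥ toR y) 0
  -- the primal side
  have hL : ∀ x : Fin 4 → ℤ,
      gterm ((ModularGroup.S • z : ℍ) : ℂ)
        (rqf (A.map (Int.cast : ℤ → ℝ))
          (toR x + ((p : ℝ)⁻¹ • B.map (Int.cast : ℤ → ℝ)) *ᵥ toR y)) (0 ⬝ᵥ toR x) =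
      cexp (π * I * ((ModularGroup.S • z : ℍ) : ℂ) *
        ((qf A x : ℂ) + 2 * ((x ⬝ᵥ y : ℤ) : ℂ) + (qf B y : ℂ) / p)) := by
    intro x
    rw [zero_dotProduct, gterm_zero_right, rqf_add_inv hsymm hAB, rqf_smul, rqf_cast, rqf_cast,
      ← cast_dot]
    congr 2
    simp only [qf]
    push_cast
    field_simp
  -- the dual side
  have hR : ∀ w : Fin 4 → ℤ,
      gterm (-1 / ((ModularGroup.S • z : ℍ) : ℂ))
        (rqf ((p : ℝ)⁻¹ • B.map (Int.cast : ℤ → ℝ)) (toR w - 0))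
        ((toR w - 0) ⬝ᵥ ((p : ℝ)⁻¹ • B.map (Int.cast : ℤ → ℝ)) *ᵥ toR y) =
      cexp (π * I * z * ((qf B w : ℂ) / p) +
        2 * π * I * (((w ⬝ᵥ B.mulVec y : ℤ) : ℂ) / p)) := by
    intro w
    rw [hτz', sub_zero, rqf_smul, rqf_cast, smul_mulVec, dotProduct_smul, ← toR_mulVec,
      ← cast_dot, gterm]
    congr 2
    · simp only [qf]
      push_cast
      field_simp
    · simp only [smul_eq_mul]
      push_cast
      field_simp
  simp only [hL, hR] at key
  rw [thetaChar, key, hdet, gconst_four hp, hτz]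
  congr 1
  push_cast
  field_simp

set_option linter.unusedVariables false in
/-- **WP INV** in the exact shape of the skeleton (`Skel.theta_inversion`). -/
theorem theta_inversion (p : ℕ) [Fact p.Prime] (q r t : ℤ) (hq : 0 < q) (hq4 : q % 4 = 3)
    (hrt : r ^ 2 + (p : ℤ) = q * t) (B : Matrix (Fin 4) (Fin 4) ℤ)
    (hA : IsGoodLattice p (ibuA p q r t) B) : ThetaInv p (ibuA p q r t) B :=
  thetaInv_of_isGoodLattice p _ B hA

/-! ### the generic structure of helper756 -/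

/-- The generic Gaussian inversion structure `H756.GaussInv` for a positive definite integral
matrix `A` with real inverse `B`, with `κ τ = (-iτ)^(-n/2) (det A)^(-1/2)`. -/
theorem gaussInv_of_posDef {n : ℕ} (A : Matrix (Fin n) (Fin n) ℤ)
    (B : Matrix (Fin n) (Fin n) ℝ) (hA : (H756.mR A).PosDef) (hAB : H756.mR A * B = 1) :
    H756.GaussInv A B (gconst n (H756.mR A).det) where
  summable τ hτ := by
    have h := summable_theta_real' (H756.mR A) B hA hAB hτ 0 fun _ => 0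
    simp only [add_zero, gterm_zero_right] at h
    exact h
  inv τ hτ h := by
    have key := theta_inversion_real (H756.mR A) B hA hAB hτ h 0
    simp only [zero_dotProduct, gterm_zero_right, sub_zero] at key
    exact key

/-- the constant `κ` in dimension `4` and determinant `p²`. -/
lemma gconst_four_eq {p : ℝ} (hp : 0 < p) (τ : ℂ) :
    gconst 4 (p ^ 2) τ = -1 / (τ ^ 2 * p) := gconst_four hp τ

end

end Fermat.Agent.S16.H468
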