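import Mathlib

/-!
# S16 / WP INV (helper468): one-dimensional Gaussian theta inversion

The one-variable theta inversion with real shift `s` and real character `β`, deduced from
Mathlib's `jacobiTheta₂_functional_equation`, and a bound for shifted Gaussian sums over `ℤ`
which is uniform in the shift.
-/

namespace Fermat.Agent.S16.H468

open Complex Real

noncomputable section

/-- the primal one-dimensional term is a constant times a Jacobi theta term. -/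
lemma oneDim_term_eq (τ : ℂ) (α s β : ℝ) (k : ℤ) :
    cexp (π * I * τ * ((α * ((k : ℝ) + s) ^ 2 : ℝ) : ℂ) + 2 * π * I * ((β * (k : ℝ) : ℝ) : ℂ)) =
      cexp (π * I * τ * (α * s ^ 2)) * jacobiTheta₂_term k (τ * α * s + β) (τ * α) := by
  rw [jacobiTheta₂_term, ← Complex.exp_add]
  congr 1
  push_cast
  ring

/-- the dual one-dimensional term is a constant times a Jacobi theta term. -/
lemma oneDim_dual_term_eq {τ : ℂ} (hτ : τ ≠ 0) {α : ℝ} (hα : α ≠ 0) (s β : ℝ) (m : ℤ) :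
    cexp (π * I * (-1 / τ) * ((((m : ℝ) - β) ^ 2 / α : ℝ) : ℂ) +
        2 * π * I * ((((m : ℝ) - β) * s : ℝ) : ℂ)) =
      cexp (-(2 * π * I * (β * s)) - π * I * β ^ 2 / (τ * α)) *
        jacobiTheta₂_term m ((τ * α * s + β) / (τ * α)) (-1 / (τ * α)) := by
  rw [jacobiTheta₂_term, ← Complex.exp_add]
  congr 1
  have hα' : (α : ℂ) ≠ 0 := by exact_mod_cast hα
  push_cast
  field_simp
  ring

/-- summability of the primal one-dimensional family. -/
lemma oneDim_summable {τ : ℂ} (hτ : 0 < τ.im) {α : ℝ} (hα : 0 < α) (s β : ℝ) :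
    Summable fun k : ℤ =>
      cexp (π * I * τ * ((α * ((k : ℝ) + s) ^ 2 : ℝ) : ℂ) + 2 * π * I * ((β * (k : ℝ) : ℝ) : ℂ)) := by
  have h : 0 < (τ * α).im := by
    rw [Complex.mul_im]; simp [hτ, hα]
  simp_rw [oneDim_term_eq]
  exact ((summable_jacobiTheta₂_term_iff _ _).mpr h).mul_left _

/-- **One-dimensional theta inversion** with shift `s` and character `β`. -/
theorem oneDim_inversion {τ : ℂ} (hτ : 0 < τ.im) {α : ℝ} (hα : 0 < α) (s β : ℝ) :
    ∑' k : ℤ, cexp (π * I * τ * ((α * ((k : ℝ) + s) ^ 2 : ℝ) : ℂ) +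
        2 * π * I * ((β * (k : ℝ) : ℝ) : ℂ)) =
      1 / (-I * (τ * α)) ^ (1 / 2 : ℂ) *
        ∑' m : ℤ, cexp (π * I * (-1 / τ) * ((((m : ℝ) - β) ^ 2 / α : ℝ) : ℂ) +
          2 * π * I * ((((m : ℝ) - β) * s : ℝ) : ℂ)) := by
  have hτ0 : τ ≠ 0 := by rintro rfl; simp at hτ
  have hα0 : (α : ℂ) ≠ 0 := by exact_mod_cast hα.ne'
  simp_rw [oneDim_term_eq, oneDim_dual_term_eq hτ0 hα.ne', tsum_mul_left]
  rw [← jacobiTheta₂, ← jacobiTheta₂, jacobiTheta₂_functional_equation (τ * α * s + β) (τ * α)]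
  have : cexp (π * I * τ * (α * s ^ 2)) * cexp (-π * I * (τ * α * s + β) ^ 2 / (τ * α)) =
      cexp (-(2 * π * I * (β * s)) - π * I * β ^ 2 / (τ * α)) := by
    rw [← Complex.exp_add]
    congr 1
    field_simp
    ring
  rw [← this]
  ring

/-- the general term of a Gaussian theta series: `exp (π i τ x + 2 π i y)`. -/
def gterm (τ : ℂ) (x y : ℝ) : ℂ := cexp (π * I * τ * (x : ℂ) + 2 * π * I * (y : ℂ))

lemma norm_gterm (τ : ℂ) (x y : ℝ) : ‖gterm τ x y‖ = rexp (-(π * τ.im * x)) := by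
  rw [gterm, Complex.norm_exp]
  congr 1
  simp [Complex.mul_re, Complex.mul_im]

lemma gterm_add (τ : ℂ) (x₁ x₂ y₁ y₂ : ℝ) :
    gterm τ (x₁ + x₂) (y₁ + y₂) = gterm τ x₁ y₁ * gterm τ x₂ y₂ := by
  rw [gterm, gterm, gterm, ← Complex.exp_add]
  congr 1
  push_cast
  ring

lemma im_neg_one_div_pos' {τ : ℂ} (hτ : 0 < τ.im) : 0 < (-1 / τ).im := by
  have h0 : τ ≠ 0 := by
    rintro rfl; simp at hτ
  have : (-1 / τ).im = τ.im / Complex.normSq τ := by
    rw [neg_div, one_div, Complex.neg_im, Complex.inv_im]; ring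
  rw [this]
  exact div_pos hτ (Complex.normSq_pos.mpr h0)

lemma oneDim_summable' {τ : ℂ} (hτ : 0 < τ.im) {α : ℝ} (hα : 0 < α) (s β : ℝ) :
    Summable fun k : ℤ => gterm τ (α * ((k : ℝ) + s) ^ 2) (β * (k : ℝ)) :=
  oneDim_summable hτ hα s β

lemma oneDim_dual_summable {τ : ℂ} (hτ : 0 < τ.im) {α : ℝ} (hα : 0 < α) (s β : ℝ) :
    Summable fun m : ℤ => gterm (-1 / τ) (((m : ℝ) - β) ^ 2 / α) (((m : ℝ) - β) * s) := by
  have hτ0 : τ ≠ 0 := by rintro rfl; simp at hτ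
  have h : 0 < (-1 / (τ * α)).im := by
    apply im_neg_one_div_pos'
    rw [Complex.mul_im]; simp [hτ, hα]
  unfold gterm
  simp_rw [oneDim_dual_term_eq hτ0 hα.ne']
  exact ((summable_jacobiTheta₂_term_iff _ _).mpr h).mul_left _

theorem oneDim_inversion' {τ : ℂ} (hτ : 0 < τ.im) {α : ℝ} (hα : 0 < α) (s β : ℝ) :
    ∑' k : ℤ, gterm τ (α * ((k : ℝ) + s) ^ 2) (β * (k : ℝ)) =
      1 / (-I * (τ * α)) ^ (1 / 2 : ℂ) *
        ∑' m : ℤ, gterm (-1 / τ) (((m : ℝ) - β) ^ 2 / α) (((m : ℝ) - β) * s) :=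
  oneDim_inversion hτ hα s β

/-- Shifted Gaussian sums over `ℤ` are summable. -/
lemma oneDim_real_summable {t α : ℝ} (ht : 0 < t) (hα : 0 < α) (s : ℝ) :
    Summable fun k : ℤ => rexp (-(π * t * (α * ((k : ℝ) + s) ^ 2))) := by
  have hτ : 0 < (I * t : ℂ).im := by simp [ht]
  have := (oneDim_summable' hτ hα s 0).norm
  simp_rw [norm_gterm] at this
  simpa using this

/-- Shifted Gaussian sums over `ℤ` are bounded uniformly in the shift. -/
lemma oneDim_uniform {t α : ℝ} (ht : 0 < t) (hα : 0 < α) :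
    ∃ K : ℝ, 0 ≤ K ∧ ∀ s : ℝ, ∑' k : ℤ, rexp (-(π * t * (α * ((k : ℝ) + s) ^ 2))) ≤ K := by
  have hτ : 0 < (I * t : ℂ).im := by simp [ht]
  refine ⟨‖1 / (-I * ((I * t : ℂ) * α)) ^ (1 / 2 : ℂ)‖ *
    ∑' m : ℤ, rexp (-(π * (-1 / (I * t : ℂ)).im * (((m : ℝ) - 0) ^ 2 / α))), ?_, fun s => ?_⟩
  · exact mul_nonneg (norm_nonneg _) (tsum_nonneg fun _ => (Real.exp_pos _).le)
  · have h1 := oneDim_inversion' hτ hα s 0
    have h2 : ∀ k : ℤ, gterm (I * t) (α * ((k : ℝ) + s) ^ 2) (0 * (k : ℝ)) =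
        ((rexp (-(π * t * (α * ((k : ℝ) + s) ^ 2))) : ℝ) : ℂ) := by
      intro k
      rw [gterm, Complex.ofReal_exp]
      congr 1
      push_cast
      ring_nf
      rw [Complex.I_sq]
      ring
    simp_rw [h2] at h1
    rw [← Complex.ofReal_tsum] at h1
    have h3 : ∑' k : ℤ, rexp (-(π * t * (α * ((k : ℝ) + s) ^ 2))) =
        ‖((∑' k : ℤ, rexp (-(π * t * (α * ((k : ℝ) + s) ^ 2))) : ℝ) : ℂ)‖ := by
      rw [Complex.norm_real, Real.norm_eq_abs, abs_of_nonneg]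
      exact tsum_nonneg fun _ => (Real.exp_pos _).le
    rw [h3, h1, norm_mul]
    refine mul_le_mul_of_nonneg_left ?_ (norm_nonneg _)
    have h4 := (oneDim_dual_summable hτ hα s 0).norm
    refine (norm_tsum_le_tsum_norm h4).trans ?_
    simp_rw [norm_gterm]
    exact le_rfl

end

end Fermat.Agent.S16.H468
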