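import Fermat.Agent.S16.H468.GaussPair

/-!
# S16 / WP INV (helper468): Schur complement step, and theta inversion for real matrices

For a positive definite real symmetric matrix `A` with inverse `B` we show
`GaussPair n (rqf A) (rqf B) A.det` by induction on `n` (splitting off the first variable:
Schur complement), and deduce the Gaussian theta inversion formula `theta_inversion_real`.
-/

namespace Fermat.Agent.S16.H468

open Complex Real Matrix

noncomputable section

/-- the real quadratic form `vᵀ A v`. -/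
def rqf {n : ℕ} (A : Matrix (Fin n) (Fin n) ℝ) (v : Fin n → ℝ) : ℝ := v ⬝ᵥ A *ᵥ v

/-- positive definiteness of a real symmetric matrix, in elementary form. -/
structure IsPD {n : ℕ} (A : Matrix (Fin n) (Fin n) ℝ) : Prop where
  symm : Aᵀ = A
  pos : ∀ v, v ≠ 0 → 0 < rqf A v

lemma isPD_of_posDef {n : ℕ} {A : Matrix (Fin n) (Fin n) ℝ} (hA : A.PosDef) : IsPD A where
  symm := by
    have := hA.isHermitian
    rwa [Matrix.IsHermitian, Matrix.conjTranspose_eq_transpose_of_trivial] at this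
  pos v hv := by
    have := hA.dotProduct_mulVec_pos hv
    simpa [rqf] using this

/-- first row without the corner -/
def row0 {n : ℕ} (M : Matrix (Fin (n + 1)) (Fin (n + 1)) ℝ) : Fin n → ℝ := fun j => M 0 j.succ

/-- the lower right corner -/
def corner {n : ℕ} (M : Matrix (Fin (n + 1)) (Fin (n + 1)) ℝ) : Matrix (Fin n) (Fin n) ℝ :=
  M.submatrix Fin.succ Fin.succ

/-- the Schur complement of the upper left entry -/
def schur {n : ℕ} (M : Matrix (Fin (n + 1)) (Fin (n + 1)) ℝ) : Matrix (Fin n) (Fin n) ℝ :=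
  Matrix.of fun i j => M i.succ j.succ - M 0 i.succ * M 0 j.succ / M 0 0

lemma symm_apply {n : ℕ} {M : Matrix (Fin n) (Fin n) ℝ} (hM : Mᵀ = M) (i j : Fin n) :
    M i j = M j i := by
  have := congrFun (congrFun hM j) i
  simpa using this

lemma corner_symm {n : ℕ} {M : Matrix (Fin (n + 1)) (Fin (n + 1)) ℝ} (hM : Mᵀ = M) :
    (corner M)ᵀ = corner M := by
  ext i j
  simp [corner, symm_apply hM i.succ j.succ]

lemma schur_symm {n : ℕ} {M : Matrix (Fin (n + 1)) (Fin (n + 1)) ℝ} (hM : Mᵀ = M) :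
    (schur M)ᵀ = schur M := by
  ext i j
  simp only [schur, Matrix.transpose_apply, Matrix.of_apply]
  rw [symm_apply hM i.succ j.succ]
  ring

lemma mulVec_zero' {n : ℕ} (M : Matrix (Fin (n + 1)) (Fin (n + 1)) ℝ) (v : Fin (n + 1) → ℝ) :
    (M *ᵥ v) 0 = M 0 0 * v 0 + row0 M ⬝ᵥ Fin.tail v := by
  simp [mulVec, dotProduct, Fin.sum_univ_succ, row0, Fin.tail]

lemma tail_mulVec {n : ℕ} {M : Matrix (Fin (n + 1)) (Fin (n + 1)) ℝ} (hM : Mᵀ = M)
    (v : Fin (n + 1) → ℝ) :
    Fin.tail (M *ᵥ v) = v 0 • row0 M + corner M *ᵥ Fin.tail v := by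
  funext i
  simp only [Fin.tail, mulVec, dotProduct, Fin.sum_univ_succ, row0, corner, Pi.add_apply,
    Pi.smul_apply, smul_eq_mul, Matrix.submatrix_apply]
  rw [symm_apply hM i.succ 0]
  ring

lemma rqf_succ {n : ℕ} {M : Matrix (Fin (n + 1)) (Fin (n + 1)) ℝ} (hM : Mᵀ = M)
    (v : Fin (n + 1) → ℝ) :
    rqf M v = M 0 0 * v 0 ^ 2 + 2 * v 0 * (row0 M ⬝ᵥ Fin.tail v) +
      rqf (corner M) (Fin.tail v) := by
  rw [rqf, dot_succ, mulVec_zero', tail_mulVec hM, dotProduct_add, dotProduct_smul, smul_eq_mul,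
    dotProduct_comm (Fin.tail v) (row0 M), rqf]
  ring

lemma schur_mulVec {n : ℕ} (M : Matrix (Fin (n + 1)) (Fin (n + 1)) ℝ) (v : Fin n → ℝ) :
    schur M *ᵥ v = corner M *ᵥ v - ((row0 M ⬝ᵥ v) / M 0 0) • row0 M := by
  funext i
  simp only [schur, mulVec, dotProduct, Matrix.of_apply, corner, row0, Pi.sub_apply,
    Pi.smul_apply, smul_eq_mul, Matrix.submatrix_apply, sub_mul, Finset.sum_sub_distrib,
    Finset.sum_div, Finset.sum_mul]
  congr 1
  refine Finset.sum_congr rfl fun j _ => ?_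
  ring

lemma rqf_schur {n : ℕ} (M : Matrix (Fin (n + 1)) (Fin (n + 1)) ℝ) (v : Fin n → ℝ) :
    rqf (schur M) v = rqf (corner M) v - (row0 M ⬝ᵥ v) ^ 2 / M 0 0 := by
  rw [rqf, schur_mulVec, dotProduct_sub, dotProduct_smul, smul_eq_mul,
    dotProduct_comm v (row0 M), rqf]
  ring

/-- the vector `u = row0 / α`. -/
def schurU {n : ℕ} (M : Matrix (Fin (n + 1)) (Fin (n + 1)) ℝ) : Fin n → ℝ :=
  fun j => M 0 j.succ / M 0 0

lemma schurU_dot {n : ℕ} (M : Matrix (Fin (n + 1)) (Fin (n + 1)) ℝ) (v : Fin n → ℝ) :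
    schurU M ⬝ᵥ v = (row0 M ⬝ᵥ v) / M 0 0 := by
  simp only [schurU, dotProduct, row0, Finset.sum_div]
  refine Finset.sum_congr rfl fun j _ => ?_
  ring

/-- the Schur decomposition of the quadratic form. -/
lemma rqf_eq_schur {n : ℕ} {M : Matrix (Fin (n + 1)) (Fin (n + 1)) ℝ} (hM : Mᵀ = M)
    (hα : M 0 0 ≠ 0) (v : Fin (n + 1) → ℝ) :
    rqf M v = M 0 0 * (v 0 + schurU M ⬝ᵥ Fin.tail v) ^ 2 + rqf (schur M) (Fin.tail v) := by
  rw [rqf_succ hM, rqf_schur, schurU_dot]
  field_simp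
  ring

lemma IsPD.corner_pos {n : ℕ} {M : Matrix (Fin (n + 1)) (Fin (n + 1)) ℝ} (hM : IsPD M) :
    0 < M 0 0 := by
  have h := hM.pos (Fin.cons 1 0) (by
    intro h
    have := congrFun h 0
    simp at this)
  rw [rqf_succ hM.symm] at h
  simpa [rqf, Fin.tail] using h

lemma IsPD.schur {n : ℕ} {M : Matrix (Fin (n + 1)) (Fin (n + 1)) ℝ} (hM : IsPD M) :
    IsPD (schur M) where
  symm := schur_symm hM.symm
  pos v hv := by
    have h := hM.pos (Fin.cons (-(schurU M ⬝ᵥ v)) v) (by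
      intro h
      apply hv
      funext i
      have := congrFun h i.succ
      simpa using this)
    rw [rqf_eq_schur hM.symm hM.corner_pos.ne'] at h
    simpa using h

lemma schur_mul_corner {n : ℕ} {M B : Matrix (Fin (n + 1)) (Fin (n + 1)) ℝ} (hM : Mᵀ = M)
    (hα : M 0 0 ≠ 0) (hMB : M * B = 1) : schur M * corner B = 1 := by
  ext i j
  have h1 := congrFun (congrFun hMB i.succ) j.succ
  have h2 := congrFun (congrFun hMB 0) j.succ
  rw [Matrix.mul_apply, Fin.sum_univ_succ] at h1 h2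
  rw [Matrix.one_apply] at h1 h2
  rw [if_neg (Fin.succ_ne_zero j).symm] at h2
  have h3 : (schur M * corner B) i j =
      ∑ k : Fin n, M i.succ k.succ * B k.succ j.succ -
        M 0 i.succ / M 0 0 * ∑ k : Fin n, M 0 k.succ * B k.succ j.succ := by
    rw [Matrix.mul_apply, Finset.mul_sum, ← Finset.sum_sub_distrib]
    refine Finset.sum_congr rfl fun k _ => ?_
    simp only [schur, corner, Matrix.of_apply, Matrix.submatrix_apply]
    ring
  rw [h3, Matrix.one_apply]
  have h4 : (if i.succ = j.succ then (1 : ℝ) else 0) = if i = j then 1 else 0 := by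
    simp only [Fin.succ_inj]
  rw [h4] at h1
  rw [← h1, symm_apply hM i.succ 0]
  have h5 : ∑ k : Fin n, M 0 k.succ * B k.succ j.succ = -(M 0 0 * B 0 j.succ) := by
    linear_combination h2
  rw [h5]
  field_simp
  ring

/-- the first row of the inverse. -/
lemma row0_inv {n : ℕ} {M B : Matrix (Fin (n + 1)) (Fin (n + 1)) ℝ}
    (hα : M 0 0 ≠ 0) (hMB : M * B = 1) (w : Fin n → ℝ) :
    row0 B ⬝ᵥ w = -(schurU M ⬝ᵥ corner B *ᵥ w) := by
  have h2 : ∀ j : Fin n, M 0 0 * B 0 j.succ + ∑ k : Fin n, M 0 k.succ * B k.succ j.succ = 0 := by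
    intro j
    have h2 := congrFun (congrFun hMB 0) j.succ
    rw [Matrix.mul_apply, Fin.sum_univ_succ, Matrix.one_apply,
      if_neg (Fin.succ_ne_zero j).symm] at h2
    exact h2
  have h3 : ∀ j : Fin n, B 0 j.succ = -(∑ k : Fin n, schurU M k * B k.succ j.succ) := by
    intro j
    have : ∑ k : Fin n, schurU M k * B k.succ j.succ =
        (∑ k : Fin n, M 0 k.succ * B k.succ j.succ) / M 0 0 := by
      rw [Finset.sum_div]
      refine Finset.sum_congr rfl fun k _ => ?_
      simp only [schurU]; ring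
    rw [this]
    field_simp
    linear_combination h2 j
  rw [dotProduct_mulVec]
  simp only [dotProduct, row0, vecMul, corner, Matrix.submatrix_apply]
  rw [← Finset.sum_neg_distrib]
  refine Finset.sum_congr rfl fun j _ => ?_
  rw [h3 j]
  ring

/-- the corner entry of the inverse. -/
lemma corner_inv {n : ℕ} {M B : Matrix (Fin (n + 1)) (Fin (n + 1)) ℝ}
    (hB : Bᵀ = B) (hα : M 0 0 ≠ 0) (hMB : M * B = 1) :
    B 0 0 = 1 / M 0 0 + schurU M ⬝ᵥ corner B *ᵥ schurU M := by
  have h0 := congrFun (congrFun hMB 0) 0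
  rw [Matrix.mul_apply, Fin.sum_univ_succ, Matrix.one_apply, if_pos rfl] at h0
  have h1 : ∑ k : Fin n, M 0 k.succ * B k.succ 0 = M 0 0 * (row0 B ⬝ᵥ schurU M) := by
    simp only [dotProduct, row0, schurU, Finset.mul_sum]
    refine Finset.sum_congr rfl fun k _ => ?_
    rw [symm_apply hB k.succ 0]
    field_simp
  rw [h1, row0_inv hα hMB] at h0
  field_simp
  linear_combination h0

/-- the Schur decomposition of the dual quadratic form. -/
lemma rqf_inv_eq {n : ℕ} {M B : Matrix (Fin (n + 1)) (Fin (n + 1)) ℝ}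
    (hB : Bᵀ = B) (hα : M 0 0 ≠ 0) (hMB : M * B = 1) (w : Fin (n + 1) → ℝ) :
    rqf B w = w 0 ^ 2 / M 0 0 + rqf (corner B) (Fin.tail w - w 0 • schurU M) := by
  have hsym : schurU M ⬝ᵥ corner B *ᵥ Fin.tail w = Fin.tail w ⬝ᵥ corner B *ᵥ schurU M := by
    rw [dotProduct_mulVec, dotProduct_comm, ← Matrix.mulVec_transpose, corner_symm hB]
  rw [rqf_succ hB, row0_inv hα hMB, corner_inv hB hα hMB]
  simp only [rqf, mulVec_sub, mulVec_smul, dotProduct_sub, sub_dotProduct, smul_dotProduct,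
    dotProduct_smul, smul_eq_mul]
  rw [hsym]
  field_simp
  ring

lemma det_eq_schur {n : ℕ} {M : Matrix (Fin (n + 1)) (Fin (n + 1)) ℝ} (hM : Mᵀ = M)
    (hα : M 0 0 ≠ 0) : M.det = M 0 0 * (schur M).det := by
  let c : Fin (n + 1) → ℝ := Fin.cons 0 (fun i => M i.succ 0 / M 0 0)
  let N : Matrix (Fin (n + 1)) (Fin (n + 1)) ℝ := Matrix.of fun i j => M i j - c i * M 0 j
  have hc0 : c 0 = 0 := rfl
  have hN0 : ∀ j, N 0 j = M 0 j := by
    intro j
    simp [N, hc0]
  have h1 : M.det = N.det := by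
    refine Matrix.det_eq_of_forall_row_eq_smul_add_const c 0 hc0 fun i j => ?_
    rw [hN0]
    simp [N]
  have hNs0 : ∀ i : Fin n, N i.succ 0 = 0 := by
    intro i
    simp only [N, c, Matrix.of_apply, Fin.cons_succ]
    field_simp
    ring
  have hNss : N.submatrix Fin.succ Fin.succ = schur M := by
    ext i j
    simp only [N, c, schur, Matrix.of_apply, Fin.cons_succ, Matrix.submatrix_apply]
    rw [symm_apply hM i.succ 0]
    ring
  rw [h1, Matrix.det_succ_column_zero, Fin.sum_univ_succ]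
  simp only [hNs0, mul_zero, zero_mul, Finset.sum_const_zero, add_zero, Fin.val_zero, pow_zero,
    one_mul, Fin.succAbove_zero]
  rw [hN0, hNss]

/-- A positive definite real symmetric matrix with inverse `B` gives a `GaussPair`. -/
theorem gaussPair_of_isPD : ∀ {n : ℕ} (A B : Matrix (Fin n) (Fin n) ℝ), IsPD A → Bᵀ = B →
    A * B = 1 → GaussPair n (rqf A) (rqf B) A.det := by
  intro n
  induction n with
  | zero =>
    intro A B _ _ _
    rw [Matrix.det_isEmpty]
    exact GaussPair.nil _ _ (fun v => by simp [rqf]) (fun v => by simp [rqf])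
  | succ n ih =>
    intro A B hA hB hAB
    have hα := hA.corner_pos
    rw [det_eq_schur hA.symm hα.ne']
    exact GaussPair.cons _ _ (A 0 0) hα (schurU A) _ _ _
      (ih (schur A) (corner B) hA.schur (corner_symm hB) (schur_mul_corner hA.symm hα.ne' hAB))
      (rqf_eq_schur hA.symm hα.ne') (rqf_inv_eq hB hα.ne' hAB)

/-- the inverse of a symmetric matrix is symmetric. -/
lemma symm_of_mul_eq_one {n : ℕ} {A B : Matrix (Fin n) (Fin n) ℝ} (hA : Aᵀ = A)
    (hAB : A * B = 1) : Bᵀ = B := by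
  have h1 : B * A = 1 := mul_eq_one_comm.mp hAB
  have h2 : A * Bᵀ = 1 := by
    have := congrArg Matrix.transpose h1
    rwa [Matrix.transpose_mul, hA, Matrix.transpose_one] at this
  calc Bᵀ = (B * A) * Bᵀ := by rw [h1, one_mul]
    _ = B * (A * Bᵀ) := by rw [mul_assoc]
    _ = B := by rw [h2, mul_one]

/-- **Gaussian theta inversion** for a positive definite real matrix `A` with inverse `B`. -/
theorem theta_inversion_real {n : ℕ} (A B : Matrix (Fin n) (Fin n) ℝ) (hA : A.PosDef)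
    (hAB : A * B = 1) {τ : ℂ} (hτ : 0 < τ.im) (a b : Fin n → ℝ) :
    ∑' x : Fin n → ℤ, gterm τ (rqf A (toR x + a)) (b ⬝ᵥ toR x) =
      gconst n A.det τ *
        ∑' m : Fin n → ℤ, gterm (-1 / τ) (rqf B (toR m - b)) ((toR m - b) ⬝ᵥ a) :=
  (gaussPair_of_isPD A B (isPD_of_posDef hA)
    (symm_of_mul_eq_one (isPD_of_posDef hA).symm hAB) hAB).inversion hτ a b

/-- summability of the theta series of a positive definite real matrix. -/
theorem summable_theta_real {n : ℕ} (A B : Matrix (Fin n) (Fin n) ℝ) (hA : A.PosDef)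
    (hAB : A * B = 1) {τ : ℂ} (hτ : 0 < τ.im) (a : Fin n → ℝ) (f : (Fin n → ℤ) → ℝ) :
    Summable fun x : Fin n → ℤ => gterm τ (rqf A (toR x + a)) (f x) :=
  (gaussPair_of_isPD A B (isPD_of_posDef hA)
    (symm_of_mul_eq_one (isPD_of_posDef hA).symm hAB) hAB).summable_gterm hτ a f

/-- summability of the theta series of the inverse of a positive definite real matrix. -/
theorem summable_theta_real' {n : ℕ} (A B : Matrix (Fin n) (Fin n) ℝ) (hA : A.PosDef)
    (hAB : A * B = 1) {τ : ℂ} (hτ : 0 < τ.im) (a : Fin n → ℝ) (f : (Fin n → ℤ) → ℝ) :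
    Summable fun x : Fin n → ℤ => gterm τ (rqf B (toR x + a)) (f x) :=
  (gaussPair_of_isPD A B (isPD_of_posDef hA)
    (symm_of_mul_eq_one (isPD_of_posDef hA).symm hAB) hAB).summable_gterm' hτ a f

end

end Fermat.Agent.S16.H468
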